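/-
S18 / Step a (helper665): Prelude unfolding.

`S18  ⇐  Core N A m  +  ConstLemma (residue field) N`, using ALL THREE parts of the hypothesis
`ReductionInputsModL A N` (degree preservation, (ii) compatibility of `r_*` with divisors of
integral functions, (iii) PGI).  No `HasPrincipalDivisors`, no QEP, no scaling argument is needed.

* `Good A N U`     : `U ∈ A((q))`, its image in `ℚ̄((q))` lies in `F = modularFunctionFieldBar N`,
                     its reduction lies in `F_k = modularFunctionFieldFullC k N` and is nonzero.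
* `Core N A m`     : for good `U₁, U₂` with equal reductions such that `m ∣ ord_P (U₁ / U₂)` at every
                     place `P` of `F`, the quotient `U₁ / U₂` is an `m`-th power in `F`.
* `ConstLemma k N` : a nonzero element of `F_k` all of whose orders vanish is a constant.
-/
import Fermat.Prelude.Def_ModularCurve_ReductionModL

set_option autoImplicit false
set_option synthInstance.maxHeartbeats 400000

noncomputable section

namespace Fermat.Agent.S18.H665

open HahnSeries IntermediateField AlgebraicCurve ModularCurve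

/-- `ℚ̄`. -/
abbrev Kb : Type := AlgebraicClosure ℚ

variable (A : ValuationSubring Kb) (N : ℕ)

/-- The residue field of `A`. -/
abbrev kA : Type := IsLocalRing.ResidueField A

/-- The function field of `X₀(N)` over `ℚ̄`, as a type. -/
abbrev FN : Type := ↥(modularFunctionFieldBar N)

/-- The mod-`ℓ` function field, as a type. -/
abbrev FkN : Type := ↥(modularFunctionFieldFullC (kA A) N)

/-- Integral Laurent series with image in `F` and nonzero reduction in `F_k`. -/
structure Good (U : LaurentSeries A) : Prop where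
  memF : coeffMap A.subtype U ∈ modularFunctionFieldBar N
  memFk : coeffMap (IsLocalRing.residue A) U ∈ modularFunctionFieldFullC (kA A) N
  ne : coeffMap (IsLocalRing.residue A) U ≠ 0

variable {A N}

/-- The element of `F` defined by a good series. -/
def Good.toF {U : LaurentSeries A} (h : Good A N U) : FN N := ⟨coeffMap A.subtype U, h.memF⟩

/-- The element of `F_k` defined by a good series. -/
def Good.toFk {U : LaurentSeries A} (h : Good A N U) : FkN A N :=
  ⟨coeffMap (IsLocalRing.residue A) U, h.memFk⟩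

theorem coeffMap_subtype_injective :
    Function.Injective (coeffMap (A.subtype) : LaurentSeries A → LaurentSeries Kb) := by
  intro x y hxy
  ext n
  have := congrArg (fun z => z.coeff n) hxy
  simpa using this

theorem Good.ne_zero {U : LaurentSeries A} (h : Good A N U) : U ≠ 0 := by
  rintro rfl
  exact h.ne (map_zero _)

theorem Good.toF_ne_zero {U : LaurentSeries A} (h : Good A N U) : h.toF ≠ 0 := by
  intro h0
  have h1 : coeffMap A.subtype U = 0 := congrArg Subtype.val h0
  exact h.ne_zero (coeffMap_subtype_injective (h1.trans (map_zero _).symm))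

theorem Good.toFk_ne_zero {U : LaurentSeries A} (h : Good A N U) : h.toFk ≠ 0 := by
  intro h0
  exact h.ne (congrArg Subtype.val h0)

theorem Good.one : Good A N (1 : LaurentSeries A) where
  memF := by rw [map_one]; exact one_mem _
  memFk := by rw [map_one]; exact one_mem _
  ne := by rw [map_one]; exact one_ne_zero

theorem Good.mul {U V : LaurentSeries A} (hU : Good A N U) (hV : Good A N V) :
    Good A N (U * V) where
  memF := by rw [map_mul]; exact mul_mem hU.memF hV.memF
  memFk := by rw [map_mul]; exact mul_mem hU.memFk hV.memFk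
  ne := by rw [map_mul]; exact mul_ne_zero hU.ne hV.ne

theorem Good.pow {U : LaurentSeries A} (hU : Good A N U) (n : ℕ) : Good A N (U ^ n) := by
  induction n with
  | zero => rw [pow_zero]; exact Good.one
  | succ n ih => rw [pow_succ]; exact ih.mul hU

@[simp] theorem Good.toF_one : (Good.one : Good A N 1).toF = 1 :=
  Subtype.ext (map_one _)

@[simp] theorem Good.toFk_one : (Good.one : Good A N 1).toFk = 1 :=
  Subtype.ext (map_one _)

theorem Good.toF_mul {U V : LaurentSeries A} (hU : Good A N U) (hV : Good A N V) :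
    (hU.mul hV).toF = hU.toF * hV.toF :=
  Subtype.ext (map_mul _ _ _)

theorem Good.toFk_mul {U V : LaurentSeries A} (hU : Good A N U) (hV : Good A N V) :
    (hU.mul hV).toFk = hU.toFk * hV.toFk :=
  Subtype.ext (map_mul _ _ _)

theorem Good.toF_pow {U : LaurentSeries A} (hU : Good A N U) (n : ℕ) :
    (hU.pow n).toF = hU.toF ^ n :=
  Subtype.ext (map_pow _ _ _)

theorem Good.toFk_pow {U : LaurentSeries A} (hU : Good A N U) (n : ℕ) :
    (hU.pow n).toFk = hU.toFk ^ n :=
  Subtype.ext (map_pow _ _ _)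

/-- The two target statements. -/
def Core (N : ℕ) (A : ValuationSubring Kb) (m : ℕ) : Prop :=
  ∀ (U₁ U₂ : LaurentSeries A) (h₁ : Good A N U₁) (h₂ : Good A N U₂),
    coeffMap (IsLocalRing.residue A) U₁ = coeffMap (IsLocalRing.residue A) U₂ →
    (∀ P : Place Kb (FN N), (m : ℤ) ∣ P.ord (h₁.toF / h₂.toF)) →
    ∃ y : FN N, y ^ m = h₁.toF / h₂.toF

/-- A nonzero element of `F_k` without zeros and poles is constant. -/
def ConstLemma (N : ℕ) (A : ValuationSubring Kb) : Prop :=
  ∀ f : FkN A N, f ≠ 0 → (∀ Q : Place (kA A) (FkN A N), Q.ord f = 0) →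
    ∃ c : kA A, f = algebraMap (kA A) (FkN A N) c

/-! ### Orders -/

section ord

variable {K F : Type*} [Field K] [Field F] [Algebra K F] (P : Place K F)

theorem ord_algebraMap_eq_zero (c : K) : P.ord (algebraMap K F c) = 0 := by
  rcases eq_or_ne c 0 with rfl | hc
  · rw [map_zero, Place.ord_zero]
  · have h1 : algebraMap K F c ∈ P.toValuationSubring := P.algebraMap_mem' c
    have h2 : algebraMap K F c⁻¹ ∈ P.toValuationSubring := P.algebraMap_mem' c⁻¹
    let u : P.toValuationSubringˣ :=
      { val := ⟨algebraMap K F c, h1⟩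
        inv := ⟨algebraMap K F c⁻¹, h2⟩
        val_inv := by
          apply Subtype.ext
          show algebraMap K F c * algebraMap K F c⁻¹ = 1
          rw [← map_mul, mul_inv_cancel₀ hc, map_one]
        inv_val := by
          apply Subtype.ext
          show algebraMap K F c⁻¹ * algebraMap K F c = 1
          rw [← map_mul, inv_mul_cancel₀ hc, map_one] }
    exact P.ord_coe_unit u

theorem ord_div' {f g : F} (hf : f ≠ 0) (hg : g ≠ 0) : P.ord (f / g) = P.ord f - P.ord g := by
  rw [div_eq_mul_inv, P.ord_mul hf (inv_ne_zero hg), P.ord_inv, sub_eq_add_neg]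

theorem ord_pow' (f : F) (n : ℕ) : P.ord (f ^ n) = n * P.ord f := by
  have := P.ord_zpow f (n : ℤ)
  rwa [zpow_natCast] at this

end ord

/-! ### PGI closure -/

theorem exists_good_of_mem_closure
    {r : Place Kb (FN N) → Place (kA A) (FkN A N)}
    (hr : IsPlaceReductionModL A N r)
    {E : Divisor Kb (FN N)}
    (hE : E ∈ AddSubgroup.closure (integralPrincipalDivisors A (IsLocalRing.residue A) N)) :
    ∃ (U₁ U₂ : LaurentSeries A) (h₁ : Good A N U₁) (h₂ : Good A N U₂),
      (∀ P : Place Kb (FN N), E P = P.ord h₁.toF - P.ord h₂.toF) ∧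
      (∀ Q : Place (kA A) (FkN A N),
        Finsupp.mapDomain r E Q = Q.ord h₁.toFk - Q.ord h₂.toFk) := by
  induction hE using AddSubgroup.closure_induction with
  | mem E hE =>
    obtain ⟨y, hy, hyk, hne, hEy⟩ := hE
    refine ⟨y, 1, ⟨hy, hyk, hne⟩, Good.one, fun P => ?_, fun Q => ?_⟩
    · rw [Good.toF_one, Place.ord_one, sub_zero]; exact hEy P
    · rw [Good.toFk_one, Place.ord_one, sub_zero]
      exact hr.2 y hy hyk hne E hEy Q
  | zero =>
    refine ⟨1, 1, Good.one, Good.one, fun P => ?_, fun Q => ?_⟩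
    · rw [sub_self]; rfl
    · rw [sub_self, Finsupp.mapDomain_zero]; rfl
  | add E E' _ _ hE hE' =>
    obtain ⟨U₁, U₂, h₁, h₂, hP, hQ⟩ := hE
    obtain ⟨U₁', U₂', h₁', h₂', hP', hQ'⟩ := hE'
    refine ⟨U₁ * U₁', U₂ * U₂', h₁.mul h₁', h₂.mul h₂', fun P => ?_, fun Q => ?_⟩
    · rw [Finsupp.add_apply, hP P, hP' P, Good.toF_mul h₁ h₁', Good.toF_mul h₂ h₂',
        P.ord_mul h₁.toF_ne_zero h₁'.toF_ne_zero, P.ord_mul h₂.toF_ne_zero h₂'.toF_ne_zero]
      ring
    · rw [Finsupp.mapDomain_add, Finsupp.add_apply, hQ Q, hQ' Q, Good.toFk_mul h₁ h₁',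
        Good.toFk_mul h₂ h₂',
        Q.ord_mul h₁.toFk_ne_zero h₁'.toFk_ne_zero, Q.ord_mul h₂.toFk_ne_zero h₂'.toFk_ne_zero]
      ring
  | neg E _ hE =>
    obtain ⟨U₁, U₂, h₁, h₂, hP, hQ⟩ := hE
    refine ⟨U₂, U₁, h₂, h₁, fun P => ?_, fun Q => ?_⟩
    · rw [Finsupp.neg_apply, hP P]; ring
    · have : Finsupp.mapDomain r (-E) = -Finsupp.mapDomain r E := by
        rw [← Finsupp.mapDomain.addMonoidHom_apply, map_neg, Finsupp.mapDomain.addMonoidHom_apply]
      rw [this, Finsupp.neg_apply, hQ Q]; ring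

/-! ### Lifting elements of `F_k` -/

theorem qExpand_jqModC_mem_bar {d : ℕ} [NeZero d] (hd : d ∣ N) :
    qExpand Kb d (jqModC Kb) ∈ modularFunctionFieldBar N := by
  have h : qExpand Kb d (jqModC Kb) = coeffEmb Kb (qExpand ℚ d jq) := by
    rw [coeffEmb, coeffMap_qExpand, ← jqModC_rat, coeffMap_jqModC]
  rw [h]
  exact coeffEmb_mem_laurentBaseChange Kb (jqd_mem_full N hd)

theorem const_mem_bar (c : Kb) :
    (HahnSeries.single (0 : ℤ) c : LaurentSeries Kb) ∈ modularFunctionFieldBar N := by
  rw [← algebraMap_laurentSeries_eq_single]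
  exact (modularFunctionFieldBar N).algebraMap_mem c

theorem const_mem_Fk (c : kA A) :
    (HahnSeries.single (0 : ℤ) c : LaurentSeries (kA A)) ∈
      modularFunctionFieldFullC (kA A) N := by
  rw [← algebraMap_laurentSeries_eq_single]
  exact (modularFunctionFieldFullC (kA A) N).algebraMap_mem c

theorem exists_lift_of_mem_algebra_adjoin {x : LaurentSeries (kA A)}
    (hx : x ∈ Algebra.adjoin (kA A) (divisorExpansionsC (kA A) N)) :
    ∃ a : LaurentSeries A, coeffMap A.subtype a ∈ modularFunctionFieldBar N ∧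
      coeffMap (IsLocalRing.residue A) a = x := by
  induction hx using Algebra.adjoin_induction with
  | mem x hx =>
    obtain ⟨d, hd0, hdN, rfl⟩ := hx
    have := hd0
    refine ⟨qExpand A d (jqModC A), ?_, ?_⟩
    · rw [coeffMap_qExpand, coeffMap_jqModC]
      exact qExpand_jqModC_mem_bar hdN
    · rw [coeffMap_qExpand, coeffMap_jqModC]
  | algebraMap c =>
    obtain ⟨c', rfl⟩ := IsLocalRing.residue_surjective c
    refine ⟨HahnSeries.single (0 : ℤ) c', ?_, ?_⟩
    · rw [coeffMap_single]
      exact const_mem_bar _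
    · rw [coeffMap_single, algebraMap_laurentSeries_eq_single]
  | add x y _ _ hx hy =>
    obtain ⟨a, ha, rfl⟩ := hx
    obtain ⟨b, hb, rfl⟩ := hy
    exact ⟨a + b, by rw [map_add]; exact add_mem ha hb, map_add _ _ _⟩
  | mul x y _ _ hx hy =>
    obtain ⟨a, ha, rfl⟩ := hx
    obtain ⟨b, hb, rfl⟩ := hy
    exact ⟨a * b, by rw [map_mul]; exact mul_mem ha hb, map_mul _ _ _⟩

/-- Every nonzero element of `F_k` is a quotient of reductions of good series. -/
theorem exists_good_div (g : FkN A N) (hg : g ≠ 0) :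
    ∃ (a b : LaurentSeries A) (ha : Good A N a) (hb : Good A N b), g = ha.toFk / hb.toFk := by
  obtain ⟨r, hr, s, hs, hgrs⟩ := IntermediateField.mem_adjoin_iff_div.mp g.2
  have hle : ∀ {x : LaurentSeries (kA A)},
      x ∈ Algebra.adjoin (kA A) (divisorExpansionsC (kA A) N) →
      x ∈ modularFunctionFieldFullC (kA A) N := fun {x} hx =>
    IntermediateField.algebra_adjoin_le_adjoin _ _ hx
  have hg' : (g : LaurentSeries (kA A)) ≠ 0 := fun h => hg (Subtype.ext h)
  have hs0 : s ≠ 0 := by
    rintro rfl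
    rw [div_zero] at hgrs
    exact hg' hgrs
  have hr0 : r ≠ 0 := by
    rintro rfl
    rw [zero_div] at hgrs
    exact hg' hgrs
  obtain ⟨a, haF, rfl⟩ := exists_lift_of_mem_algebra_adjoin hr
  obtain ⟨b, hbF, rfl⟩ := exists_lift_of_mem_algebra_adjoin hs
  refine ⟨a, b, ⟨haF, hle hr, hr0⟩, ⟨hbF, hle hs, hs0⟩, ?_⟩
  apply Subtype.ext
  rw [hgrs]
  rfl

/-! ### Assembly -/

theorem good_const {c : A} (hc : IsLocalRing.residue A c ≠ 0) :
    Good A N (HahnSeries.single (0 : ℤ) c : LaurentSeries A) where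
  memF := by rw [coeffMap_single]; exact const_mem_bar _
  memFk := by rw [coeffMap_single]; exact const_mem_Fk _
  ne := by
    rw [coeffMap_single]
    intro h0
    have := congrArg (fun z => z.coeff 0) h0
    simp only [HahnSeries.coeff_single_same, HahnSeries.coeff_zero] at this
    exact hc this

theorem good_const_toF {c : A} (hc : IsLocalRing.residue A c ≠ 0) :
    (good_const (N := N) hc).toF = algebraMap Kb (FN N) (c : Kb) := by
  apply Subtype.ext
  show coeffMap A.subtype (HahnSeries.single (0 : ℤ) c) = algebraMap Kb (LaurentSeries Kb) (c : Kb)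
  rw [coeffMap_single, algebraMap_laurentSeries_eq_single]
  rfl

theorem good_const_toFk {c : A} (hc : IsLocalRing.residue A c ≠ 0) :
    (good_const (N := N) hc).toFk = algebraMap (kA A) (FkN A N) (IsLocalRing.residue A c) := by
  apply Subtype.ext
  show coeffMap (IsLocalRing.residue A) (HahnSeries.single (0 : ℤ) c) =
    algebraMap (kA A) (LaurentSeries (kA A)) (IsLocalRing.residue A c)
  rw [coeffMap_single, algebraMap_laurentSeries_eq_single]

set_option maxHeartbeats 3200000 in
/-- **Step a**: `S18` follows from `Core` and `ConstLemma`. -/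
theorem S18_of_core (h : ReductionInputsModL A N) {m : ℕ} (hm0 : m ≠ 0)
    (hconst : ConstLemma N A) (hcore : Core N A m)
    (z : JZero N) (hmz : m • z = 0) (hz : reductionModL A N z = 0) : z = 0 := by
  obtain ⟨D, rfl⟩ := Pic0.mk_surjective z
  have hr : IsPlaceReductionModL A N (placeReductionModL h) :=
    isPlaceReductionModL_placeReductionModL h
  have hgen : PrincipalGeneratedByIntegral A (IsLocalRing.residue A) N := h.choose_spec.2
  set r := placeReductionModL h with hr_def
  -- `m • D` is principal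
  have h1 : (m • (D : Divisor Kb (FN N))) ∈ Divisor.principal (K := Kb) (F := FN N) := by
    have h0 : Pic0.mk (m • D) = 0 := by
      rw [← hmz]; rfl
    have := (QuotientAddGroup.eq_zero_iff _).mp h0
    simpa [AddSubgroup.mem_addSubgroupOf] using this
  -- `r_* D` is principal
  have h2 : Finsupp.mapDomain r (D : Divisor Kb (FN N)) ∈
      Divisor.principal (K := kA A) (F := FkN A N) := by
    rw [reductionModL_mk h D] at hz
    have := (QuotientAddGroup.eq_zero_iff _).mp hz
    simpa [AddSubgroup.mem_addSubgroupOf] using this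
  obtain ⟨U₁, U₂, hU₁, hU₂, hP, hQ⟩ := exists_good_of_mem_closure hr (hgen h1)
  obtain ⟨g, hg0, hg⟩ := h2
  obtain ⟨a, b, ha, hb, hgab⟩ := exists_good_div g hg0
  -- orders on `F_k`
  have hQm : ∀ Q : Place (kA A) (FkN A N),
      (m : ℤ) * Q.ord g = Q.ord hU₁.toFk - Q.ord hU₂.toFk := by
    intro Q
    rw [← hQ Q, ← hg Q]
    have : Finsupp.mapDomain r (m • (D : Divisor Kb (FN N))) =
        m • Finsupp.mapDomain r (D : Divisor Kb (FN N)) := by
      rw [← Finsupp.mapDomain.addMonoidHom_apply, map_nsmul,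
        Finsupp.mapDomain.addMonoidHom_apply]
    rw [this, Finsupp.smul_apply, nsmul_eq_mul]
  -- the constant
  have hV₁ : Good A N (U₁ * b ^ m) := hU₁.mul (hb.pow m)
  have hW : Good A N (U₂ * a ^ m) := hU₂.mul (ha.pow m)
  have hV₁k : hV₁.toFk = hU₁.toFk * hb.toFk ^ m := by
    rw [← Good.toFk_pow hb m]; exact Good.toFk_mul hU₁ (hb.pow m)
  have hWk : hW.toFk = hU₂.toFk * ha.toFk ^ m := by
    rw [← Good.toFk_pow ha m]; exact Good.toFk_mul hU₂ (ha.pow m)
  have hV₁F : hV₁.toF = hU₁.toF * hb.toF ^ m := by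
    rw [← Good.toF_pow hb m]; exact Good.toF_mul hU₁ (hb.pow m)
  have hWF : hW.toF = hU₂.toF * ha.toF ^ m := by
    rw [← Good.toF_pow ha m]; exact Good.toF_mul hU₂ (ha.pow m)
  have hf0 : hV₁.toFk / hW.toFk ≠ 0 := div_ne_zero hV₁.toFk_ne_zero hW.toFk_ne_zero
  have hford : ∀ Q : Place (kA A) (FkN A N), Q.ord (hV₁.toFk / hW.toFk) = 0 := by
    intro Q
    rw [ord_div' Q hV₁.toFk_ne_zero hW.toFk_ne_zero, hV₁k, hWk,
      Q.ord_mul hU₁.toFk_ne_zero (pow_ne_zero _ hb.toFk_ne_zero),
      Q.ord_mul hU₂.toFk_ne_zero (pow_ne_zero _ ha.toFk_ne_zero), ord_pow', ord_pow']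
    have h3 := hQm Q
    rw [hgab, ord_div' Q ha.toFk_ne_zero hb.toFk_ne_zero] at h3
    linarith
  obtain ⟨cbar, hc⟩ := hconst _ hf0 hford
  have hcbar0 : cbar ≠ 0 := by
    rintro rfl
    rw [map_zero] at hc
    exact hf0 hc
  obtain ⟨c, rfl⟩ := IsLocalRing.residue_surjective cbar
  have hCc : Good A N (HahnSeries.single (0 : ℤ) c : LaurentSeries A) := good_const hcbar0
  have hV₂ : Good A N (HahnSeries.single (0 : ℤ) c * (U₂ * a ^ m)) := hCc.mul hW
  have hV₂k : hV₂.toFk = algebraMap (kA A) (FkN A N) (IsLocalRing.residue A c) * hW.toFk := by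
    rw [← good_const_toFk (N := N) hcbar0]; exact Good.toFk_mul hCc hW
  have hV₂F : hV₂.toF = algebraMap Kb (FN N) (c : Kb) * hW.toF := by
    rw [← good_const_toF (N := N) hcbar0]; exact Good.toF_mul hCc hW
  have hred : coeffMap (IsLocalRing.residue A) (U₁ * b ^ m) =
      coeffMap (IsLocalRing.residue A) (HahnSeries.single (0 : ℤ) c * (U₂ * a ^ m)) := by
    have : hV₁.toFk = hV₂.toFk := by
      rw [hV₂k, ← hc, div_mul_cancel₀ _ hW.toFk_ne_zero]
    exact congrArg Subtype.val this
  have hc0 : algebraMap Kb (FN N) (c : Kb) ≠ 0 := by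
    intro h0
    apply hV₂.toF_ne_zero
    rw [hV₂F, h0, zero_mul]
  have hPm : ∀ P : Place Kb (FN N),
      P.ord (hV₁.toF / hV₂.toF) =
        (m : ℤ) * ((D : Divisor Kb (FN N)) P + P.ord hb.toF - P.ord ha.toF) := by
    intro P
    rw [ord_div' P hV₁.toF_ne_zero hV₂.toF_ne_zero, hV₂F, P.ord_mul hc0 hW.toF_ne_zero,
      ord_algebraMap_eq_zero, hV₁F, hWF,
      P.ord_mul hU₁.toF_ne_zero (pow_ne_zero _ hb.toF_ne_zero),
      P.ord_mul hU₂.toF_ne_zero (pow_ne_zero _ ha.toF_ne_zero), ord_pow', ord_pow']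
    have h3 := hP P
    rw [Finsupp.smul_apply, nsmul_eq_mul] at h3
    linarith
  obtain ⟨y, hy⟩ := hcore _ _ hV₁ hV₂ hred (fun P => ⟨_, hPm P⟩)
  have hy0 : y ≠ 0 := by
    rintro rfl
    rw [zero_pow hm0] at hy
    exact div_ne_zero hV₁.toF_ne_zero hV₂.toF_ne_zero hy.symm
  -- `D = div (y * a / b)`
  have hDprin : (D : Divisor Kb (FN N)) ∈ Divisor.principal (K := Kb) (F := FN N) := by
    refine ⟨y * ha.toF / hb.toF,
      div_ne_zero (mul_ne_zero hy0 ha.toF_ne_zero) hb.toF_ne_zero, fun P => ?_⟩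
    rw [ord_div' P (mul_ne_zero hy0 ha.toF_ne_zero) hb.toF_ne_zero,
      P.ord_mul hy0 ha.toF_ne_zero]
    have h4 : (m : ℤ) * P.ord y =
        (m : ℤ) * ((D : Divisor Kb (FN N)) P + P.ord hb.toF - P.ord ha.toF) := by
      rw [← hPm P, ← hy, ord_pow']
    have hm0' : (m : ℤ) ≠ 0 := by exact_mod_cast hm0
    have h5 := mul_left_cancel₀ hm0' h4
    linarith
  exact (QuotientAddGroup.eq_zero_iff _).mpr (by
    simpa [AddSubgroup.mem_addSubgroupOf] using hDprin)

/-- `S18` in the shape of the frozen statement, from `Core` and `ConstLemma`. -/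
theorem S18_of_core_frozen_shape {ℓ : ℕ} [Fact ℓ.Prime]
    (h : ReductionInputsModL A N) (m : ℕ) (hm : ¬ ℓ ∣ m)
    (hconst : ConstLemma N A) (hcore : Core N A m)
    (z : JZero N) (hmz : m • z = 0) (hz : reductionModL A N z = 0) : z = 0 :=
  S18_of_core h (fun h0 => hm (by rw [h0]; exact dvd_zero ℓ)) hconst hcore z hmz hz

end Fermat.Agent.S18.H665
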